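import Fermat.Agent.S19.Defs

/-!
# Cell A3 (S19) — FROZEN second-level interface (row-lead helper15, after deputy helper979)

    OrderStatement  <==  LEVEL  +  OrderStatementGood
    OrderStatementGood  <==  FIN + CONT + UNR + LOCAL

* `IsContAddAction`, `CoordDatum`, `IsInertiaAt`, `LocalCoordDatum` are taken verbatim from the
  deputy's spec `origin/helper979:Fermat/Agent/S19/H979/Spec.lean` (namespace changed).
* `UnrStatement`   (UNR, pure algebra)  : local coordinates at ONE place, equivariant under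
                   inertia only  ==>  global coordinates.
* `LocalStatement` (LOCAL = DISC + GR)  : the torsion of `J₀(N)` at a GOOD level has local
                   coordinates.  Its decomposition into DISC (abstract `RedDatum`) and GR (the
                   instance for `X₀(N)`) is frozen by helper979 / helper799 in their own spec files.
* `LevelStatement` (LEVEL, only needed for `ℓ = 2, 3`): the torsion at level `N` embeds
                   Galois-equivariantly into the torsion at a good level.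

Proved here (no holes): `orderDatum_of_coordDatum`, `OrderDatum.comap`, `orderStatement_of_good`,
`orderStatementGood_of`.
-/

set_option autoImplicit false

noncomputable section

namespace Fermat.Agent.S19

/-- The action is by additive automorphisms and every point has an open stabiliser. -/
structure IsContAddAction {M : Type} [AddCommGroup M] (act : GalQ → M → M) : Prop where
  act_one : ∀ m, act 1 m = m
  act_mul : ∀ σ τ m, act (σ * τ) m = act σ (act τ m)
  act_add : ∀ σ m m', act σ (m + m') = act σ m + act σ m'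
  cont : ∀ m, ∃ L : IntermediateField ℚ Qb, FiniteDimensional ℚ L ∧
    ∀ σ : GalQ, (∀ a ∈ L, σ a = a) → act σ m = m

/-- Global integral Galois-equivariant coordinates with `Zbar`-polynomial addition. -/
structure CoordDatum (ℓ : ℕ) (M : Type) [AddCommGroup M] (act : GalQ → M → M) where
  ι : Type
  fin : Finite ι
  Φ : M → ι → Qb
  inj : Function.Injective Φ
  equivariant : ∀ σ m i, Φ (act σ m) i = σ (Φ m i)
  integral : ∀ m i, IsIntegral (Rl ℓ) (Φ m i)
  add_mem : ∀ i, (fun p : M × M => Φ (p.1 + p.2) i) ∈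
      Algebra.adjoin (Zb ℓ) ({f | ∃ j, f = fun p : M × M => Φ p.1 j} ∪
        {f | ∃ j, f = fun p : M × M => Φ p.2 j})

/-- `σ` lies in the inertia group of the valuation ring `V`. -/
def IsInertiaAt (V : ValuationSubring Qb) (σ : GalQ) : Prop :=
  ∀ a : Qb, a ∈ V → σ a - a ∈ V.nonunits

/-- Integral coordinates at ONE place above `ℓ`, equivariant under inertia only; the addition
polynomials may have arbitrary coefficients in `V`. -/
structure LocalCoordDatum (ℓ : ℕ) (M : Type) [AddCommGroup M] (act : GalQ → M → M) where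
  V : ValuationSubring Qb
  ell_mem : (ℓ : Qb) ∈ V.nonunits
  ι : Type
  fin : Finite ι
  Ψ : M → ι → Qb
  inj : Function.Injective Ψ
  integral : ∀ m i, Ψ m i ∈ V
  equivariant : ∀ σ, IsInertiaAt V σ → ∀ m i, Ψ (act σ m) i = σ (Ψ m i)
  add_mem : ∀ i, (fun p : M × M => Ψ (p.1 + p.2) i) ∈
      Algebra.adjoin V ({f | ∃ j, f = fun p : M × M => Ψ p.1 j} ∪
        {f | ∃ j, f = fun p : M × M => Ψ p.2 j})

/-- **UNR** (unramified descent; pure algebra). -/
def UnrStatement : Prop :=
  ∀ (ℓ : ℕ) [Fact ℓ.Prime] (M : Type) [AddCommGroup M] [Finite M] (act : GalQ → M → M),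
    IsContAddAction act → LocalCoordDatum ℓ M act → Nonempty (CoordDatum ℓ M act)

/-- Levels at which the S18 cell proves good reduction of the coordinate-line model. -/
def GoodLevel (N ℓ : ℕ) : Prop := 5 ≤ ℓ ∨ (ℓ = 3 ∧ 2 ∣ N) ∨ (ℓ = 2 ∧ 3 ∣ N)

/-- **LOCAL** (= DISC + GR): local coordinates on the torsion at a good level. -/
def LocalStatement : Prop :=
  ∀ (N : ℕ) [NeZero N] (ℓ : ℕ) [Fact ℓ.Prime], ¬ ℓ ∣ N → GoodLevel N ℓ → ∀ k : ℕ,
    Finite (Tors N ℓ k) → Nonempty (LocalCoordDatum ℓ (Tors N ℓ k) (torsAct N ℓ k))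

/-- **CONT**: the Galois action on the torsion is additive with open stabilisers. -/
def ContStatement : Prop :=
  ∀ (N : ℕ) [NeZero N] (ℓ : ℕ) [Fact ℓ.Prime] (k : ℕ), IsContAddAction (torsAct N ℓ k)

/-- **ORDER at good levels.** -/
def OrderStatementGood : Prop :=
  ∀ (N : ℕ) [NeZero N] (ℓ : ℕ) [Fact ℓ.Prime], ¬ ℓ ∣ N → GoodLevel N ℓ → ∀ k : ℕ,
    Nonempty (OrderDatum ℓ (Tors N ℓ k) (torsAct N ℓ k))

/-- **LEVEL**: the torsion at level `N` embeds equivariantly into the torsion at a good level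
(`M = N` if `ℓ ≥ 5`; `M = lcm(N,2)` if `ℓ = 3`; `M = lcm(N,3)` if `ℓ = 2`; the map is the
conorm). -/
def LevelStatement : Prop :=
  ∀ (N : ℕ) [NeZero N] (ℓ : ℕ) [Fact ℓ.Prime], ¬ ℓ ∣ N → ∀ k : ℕ,
    ∃ (M : ℕ) (_ : NeZero M) (k' : ℕ), ¬ ℓ ∣ M ∧ GoodLevel M ℓ ∧
      ∃ j : Tors N ℓ k →+ Tors M ℓ k', Function.Injective j ∧
        ∀ (σ : GalQ) (x : Tors N ℓ k), j (torsAct N ℓ k σ x) = torsAct M ℓ k' σ (j x)

/-! ## Proved glue -/

/-- Global coordinates give an order datum. -/
theorem orderDatum_of_coordDatum {ℓ : ℕ} {M : Type} [AddCommGroup M] {act : GalQ → M → M}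
    (hadd : ∀ (σ : GalQ) (a b : M), act σ (a + b) = act σ a + act σ b)
    (D : CoordDatum ℓ M act) : Nonempty (OrderDatum ℓ M act) := by
  refine ⟨{ act_add := hadd
            gens := Set.range fun (i : D.ι) (m : M) => D.Φ m i
            equivariant := ?_
            integral := ?_
            separates := ?_
            add_mem := ?_ }⟩
  · rintro f ⟨i, rfl⟩ σ m
    exact D.equivariant σ m i
  · rintro f ⟨i, rfl⟩ m
    exact D.integral m i
  · intro m m' h
    apply D.inj
    funext i
    exact h _ ⟨i, rfl⟩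
  · rintro f ⟨i, rfl⟩
    refine Algebra.adjoin_mono ?_ (D.add_mem i)
    rintro g (⟨j, rfl⟩ | ⟨j, rfl⟩)
    · exact Or.inl ⟨_, ⟨j, rfl⟩, rfl⟩
    · exact Or.inr ⟨_, ⟨j, rfl⟩, rfl⟩

/-- Restriction of an order datum along an injective equivariant additive map
(closure under Galois submodules). -/
theorem OrderDatum.comap {ℓ : ℕ} {M M' : Type} [AddCommGroup M] [AddCommGroup M']
    {act : GalQ → M → M} {act' : GalQ → M' → M'} (D : OrderDatum ℓ M act)
    (hadd' : ∀ (σ : GalQ) (a b : M'), act' σ (a + b) = act' σ a + act' σ b)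
    (j : M' →+ M) (hj : Function.Injective j)
    (hjσ : ∀ (σ : GalQ) (x : M'), j (act' σ x) = act σ (j x)) :
    Nonempty (OrderDatum ℓ M' act') := by
  refine ⟨{ act_add := hadd'
            gens := (fun f : M → Qb => f ∘ j) '' D.gens
            equivariant := ?_
            integral := ?_
            separates := ?_
            add_mem := ?_ }⟩
  · rintro _ ⟨f, hf, rfl⟩ σ m
    show f (j (act' σ m)) = σ (f (j m))
    rw [hjσ]
    exact D.equivariant f hf σ (j m)
  · rintro _ ⟨f, hf, rfl⟩ m
    exact D.integral f hf (j m)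
  · intro m m' h
    apply hj
    apply D.separates
    intro f hf
    exact h _ ⟨f, hf, rfl⟩
  · rintro _ ⟨f, hf, rfl⟩
    -- pull back along `j × j`
    let φ : (M × M → Qb) →ₐ[Zb ℓ] (M' × M' → Qb) :=
      { toFun := fun F p => F (j p.1, j p.2)
        map_one' := rfl
        map_mul' := fun _ _ => rfl
        map_zero' := rfl
        map_add' := fun _ _ => rfl
        commutes' := fun _ => rfl }
    have h1 : φ (fun p : M × M => f (p.1 + p.2)) ∈
        (Algebra.adjoin (Zb ℓ) (coordFunctions D.gens)).map φ :=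
      ⟨_, D.add_mem f hf, rfl⟩
    have h2 : (fun p : M' × M' => (f ∘ j) (p.1 + p.2)) = φ (fun p : M × M => f (p.1 + p.2)) := by
      funext p
      show f (j (p.1 + p.2)) = f (j p.1 + j p.2)
      rw [map_add]
    rw [h2]
    rw [AlgHom.map_adjoin] at h1
    refine Algebra.adjoin_mono ?_ h1
    rintro _ ⟨g, (⟨h, hh, rfl⟩ | ⟨h, hh, rfl⟩), rfl⟩
    · exact Or.inl ⟨h ∘ j, ⟨h, hh, rfl⟩, rfl⟩
    · exact Or.inr ⟨h ∘ j, ⟨h, hh, rfl⟩, rfl⟩

/-- ORDER at all levels from ORDER at good levels and LEVEL. -/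
theorem orderStatement_of_good (hgood : OrderStatementGood) (hlevel : LevelStatement) :
    OrderStatement := by
  intro N _ ℓ _ hℓN k
  obtain ⟨M, hM, k', hℓM, hg, j, hj, hjσ⟩ := hlevel N ℓ hℓN k
  obtain ⟨D⟩ := hgood M ℓ hℓM hg k'
  exact D.comap (torsAct_add N ℓ k) j hj hjσ

/-- ORDER at good levels from FIN, CONT, UNR and LOCAL. -/
theorem orderStatementGood_of (hfin : FinStatement) (hcont : ContStatement)
    (hunr : UnrStatement) (hlocal : LocalStatement) : OrderStatementGood := by
  intro N _ ℓ _ hℓN hg k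
  have hF : Finite (Tors N ℓ k) := hfin N ℓ k
  obtain ⟨L⟩ := hlocal N ℓ hℓN hg k hF
  obtain ⟨C⟩ := hunr ℓ (Tors N ℓ k) (torsAct N ℓ k) (hcont N ℓ k) L
  exact orderDatum_of_coordDatum (torsAct_add N ℓ k) C

end Fermat.Agent.S19

end
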