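import Fermat.Agent.S19.Top2
import Fermat.Agent.A3.H319.Level
import Fermat.Agent.S19.H979.RankOne
import Fermat.Agent.S19.Unr.Spec
import Fermat.Agent.S19.H859.UBSpan
import Fermat.Agent.S19.H859.UC

/-!
# Cell A3 (S19) — top assembly, v3: frozen S19 from the open leaves

Proved on main and discharged here: ORD, FIN, CONT (`Top2`), LEVEL (`A3.H319.levelStatement`,
helper319; second proof `S19.H315.levelStatement`), RANK ONE (`H979.rankOneStatement`),
UNR nodes UB, UC (`H859.spanningStatement`, `H859.coeffStatement`, helper859).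

    S19_of_two    : UnrStatement → LocalStatement → frozen S19
    S19_of_leaves : Unr.ClosureStatement → H979.AbsLocalStatement → H979.GrStatement → frozen S19

Open leaves: UA (`Unr.ClosureStatement`), LOCAL-ABS (`H979.AbsLocalStatement`, the abstract local
theorem of `A3/H799`), GR (`H979.GrStatement`, the `GoodRed` instance for `X₀(M)` at good levels).
-/

set_option autoImplicit false

namespace Fermat.Agent.S19

/-- **Top assembly v3a**: frozen S19 from UNR and LOCAL. -/
theorem S19_of_two (hunr : UnrStatement) (hlocal : LocalStatement)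
    (p : ℕ) [NeZero p] (ℓ : ℕ) [Fact ℓ.Prime] (hℓp : ¬ ℓ ∣ p) (k : ℕ) :
    FrozenConclusion p ℓ k :=
  S19_of_three hunr hlocal Fermat.Agent.A3.H319.levelStatement p ℓ hℓp k

/-- UNR from its only open node UA. -/
theorem unrStatement_of_closure (hUA : Unr.ClosureStatement) : UnrStatement :=
  Unr.unrStatement_of_nodes hUA H859.spanningStatement H859.coeffStatement

/-- **Top assembly v3b**: frozen S19 from the three open leaves UA, LOCAL-ABS, GR. -/
theorem S19_of_leaves (hUA : Unr.ClosureStatement) (habs : H979.AbsLocalStatement)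
    (hgr : H979.GrStatement)
    (p : ℕ) [NeZero p] (ℓ : ℕ) [Fact ℓ.Prime] (hℓp : ¬ ℓ ∣ p) (k : ℕ) :
    FrozenConclusion p ℓ k :=
  S19_of_two (unrStatement_of_closure hUA) (H979.localStatement_of_abs_gr' habs hgr) p ℓ hℓp k

end Fermat.Agent.S19
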