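import Fermat.Agent.S19.Top4
import Fermat.Agent.A3.H255.LocalClosed
import Fermat.Agent.A3.H739.GrAsm

/-!
# Cell A3 (S19) — top assembly, v5: frozen S19 from GR alone

Proved on main and discharged here: everything of `Top4` and LOCAL-ABS
(`A3.H255.absLocalStatement`: the abstract local theorem of helper799's team, all leaves closed).

    S19_of_gr        : H979.GrStatement → frozen S19
    S19_of_gr_leaves : (RedLeaf, GenusLeaf, OrthLeaf of `A3/H739/GrAsm.lean`) → frozen S19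

The only open block of the cell is GR (good reduction of `X₀(M)` at good levels).
-/

set_option autoImplicit false

namespace Fermat.Agent.S19

/-- **Top assembly v5a**: frozen S19 from GR. -/
theorem S19_of_gr (hgr : H979.GrStatement)
    (p : ℕ) [NeZero p] (ℓ : ℕ) [Fact ℓ.Prime] (hℓp : ¬ ℓ ∣ p) (k : ℕ) :
    FrozenConclusion p ℓ k :=
  S19_of_abs_gr Fermat.Agent.A3.H255.absLocalStatement hgr p ℓ hℓp k

open Fermat.Agent.A3.H739 in
/-- **Top assembly v5b**: frozen S19 from the three leaves of GR. -/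
theorem S19_of_gr_leaves
    (hred : ∀ (N : ℕ) [NeZero N] (ℓ : ℕ) [Fact ℓ.Prime], ¬ ℓ ∣ N → GoodLevel N ℓ →
      ∀ V : ValuationSubring Qb, V.LiesOverPrime ℓ → RedLeaf N V)
    (hgen : ∀ (N : ℕ) [NeZero N] (ℓ : ℕ) [Fact ℓ.Prime], ¬ ℓ ∣ N → GoodLevel N ℓ →
      ∀ V : ValuationSubring Qb, V.LiesOverPrime ℓ → GenusLeaf N V)
    (horth : ∀ (N : ℕ) [NeZero N] (ℓ : ℕ) [Fact ℓ.Prime] (hℓN : ¬ ℓ ∣ N), GoodLevel N ℓ →
      ∀ (V : ValuationSubring Qb) (hV : V.LiesOverPrime ℓ), OrthLeaf N V (gr_vg N hℓN V hV))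
    (p : ℕ) [NeZero p] (ℓ : ℕ) [Fact ℓ.Prime] (hℓp : ¬ ℓ ∣ p) (k : ℕ) :
    FrozenConclusion p ℓ k :=
  S19_of_gr (grStatement_of_leaves_forall hred hgen horth) p ℓ hℓp k

end Fermat.Agent.S19
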