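import Fermat.Agent.S19.Spec
import Fermat.Agent.S29.H571.FiniteLevel

/-!
# Cell A3 (S19) — block CONT: the Galois action on the torsion of `J₀(N)` is additive with open
stabilisers.  Uses FINLEVEL of helper571 (S29 route, on main).
-/

set_option autoImplicit false

noncomputable section

namespace Fermat.Agent.S19

open ModularCurve

/-- **CONT** (proved). -/
theorem contStatement : ContStatement := by
  intro N _ ℓ hℓ k
  refine ⟨fun m => ?_, fun σ τ m => ?_, torsAct_add N ℓ k, fun m => ?_⟩
  · exact Subtype.ext (one_smul GalQ (m : JZero N))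
  · exact Subtype.ext (mul_smul σ τ (m : JZero N))
  · have hn : ((ℓ : ℤ) ^ k) ≠ 0 := pow_ne_zero _ (by exact_mod_cast hℓ.out.ne_zero)
    have hx : ((ℓ : ℤ) ^ k) • (m : JZero N) = 0 := by
      have := m.2
      rwa [Submodule.mem_torsionBy_iff] at this
    obtain ⟨L, hL, h⟩ := Fermat.Agent.S29.H571.exists_finiteLevel_of_zsmul_eq_zero
      (modularFunctionFieldFull N) (m : JZero N) hn hx
    exact ⟨L, hL, fun σ hσ => Subtype.ext (h σ hσ)⟩

end Fermat.Agent.S19

end
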