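import Fermat.Agent.S19.Defs

/-!
# Cell A3 (S19) — top glue: frozen S19 from the three blocks ORD, FIN, ORDER
-/

set_option autoImplicit false

namespace Fermat.Agent.S19

open ModularCurve

/-- The frozen S19 conclusion, for fixed `N, ℓ, k`. -/
def FrozenConclusion (p : ℕ) (ℓ : ℕ) (k : ℕ) : Prop :=
  ∃ (H : Type) (_ : CommRing H) (_ : HopfAlgebra (GaloisRep.ratLocalizedAt ℓ) H),
    Module.Finite (GaloisRep.ratLocalizedAt ℓ) H ∧ Module.Flat (GaloisRep.ratLocalizedAt ℓ) H ∧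
    Coalgebra.IsCocomm (GaloisRep.ratLocalizedAt ℓ) H ∧
    ∃ e : WithConv (H →ₐ[GaloisRep.ratLocalizedAt ℓ] AlgebraicClosure ℚ) ≃
        ↥(Submodule.torsionBy ℤ (JZero p) ((ℓ : ℤ) ^ k)),
      (∀ f g, e (f * g) = e f + e g) ∧
      ∀ (σ : AlgebraicClosure ℚ ≃ₐ[ℚ] AlgebraicClosure ℚ)
        (f g : WithConv (H →ₐ[GaloisRep.ratLocalizedAt ℓ] AlgebraicClosure ℚ)),
        (∀ h : H, g h = σ (f h)) → ((e g : JZero p)) = σ • (e f : JZero p)

theorem frozen_of_hopfModel (p ℓ k : ℕ) (h : HopfModel ℓ (Tors p ℓ k) (torsAct p ℓ k)) :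
    FrozenConclusion p ℓ k := by
  obtain ⟨H, i1, i2, hfin, hflat, hco, e, hmul, hgal⟩ := h
  refine ⟨H, i1, i2, hfin, hflat, hco, e, hmul, ?_⟩
  intro σ f g hfg
  have := hgal σ f g hfg
  rw [this]
  rfl

/-- **Top glue**: frozen S19 from ORD + FIN + ORDER. -/
theorem S19_of_blocks (hord : OrdStatement) (hfin : FinStatement) (horder : OrderStatement)
    (p : ℕ) [NeZero p] (ℓ : ℕ) [Fact ℓ.Prime] (hℓp : ¬ ℓ ∣ p) (k : ℕ) :
    FrozenConclusion p ℓ k := by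
  haveI : Finite (Tors p ℓ k) := hfin p ℓ k
  exact frozen_of_hopfModel p ℓ k (hord ℓ (Tors p ℓ k) (torsAct p ℓ k) (horder p ℓ hℓp k))

end Fermat.Agent.S19
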