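import Fermat.Agent.S19.Glue
import Fermat.Agent.S19.Cont

/-!
# Cell A3 (S19) — top assembly: frozen S19 from the five open blocks

    ORD   : OrdStatement      (pure algebra:  OrderDatum ==> Hopf model)
    FIN   : FinStatement      (torsion finite)
    UNR   : UnrStatement      (pure algebra:  local coordinates ==> global coordinates)
    LOCAL : LocalStatement    (DISC + GR: local coordinates at good levels)
    LEVEL : LevelStatement    (ℓ = 2, 3: conorm embedding into a good level)

CONT is proved (`contStatement`, from FINLEVEL of helper571).
-/

set_option autoImplicit false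

namespace Fermat.Agent.S19

/-- ORDER from the open blocks. -/
theorem orderStatement_of_blocks (hfin : FinStatement) (hunr : UnrStatement)
    (hlocal : LocalStatement) (hlevel : LevelStatement) : OrderStatement :=
  orderStatement_of_good (orderStatementGood_of hfin contStatement hunr hlocal) hlevel

/-- **Top assembly**: frozen S19 from ORD, FIN, UNR, LOCAL, LEVEL. -/
theorem S19_of_five (hord : OrdStatement) (hfin : FinStatement) (hunr : UnrStatement)
    (hlocal : LocalStatement) (hlevel : LevelStatement)
    (p : ℕ) [NeZero p] (ℓ : ℕ) [Fact ℓ.Prime] (hℓp : ¬ ℓ ∣ p) (k : ℕ) :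
    FrozenConclusion p ℓ k :=
  S19_of_blocks hord hfin (orderStatement_of_blocks hfin hunr hlocal hlevel) p ℓ hℓp k

end Fermat.Agent.S19
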