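import Fermat.Agent.S19.Top
import Fermat.Agent.S19.H15.Ord
import Fermat.Agent.A3.H319.Fin

/-!
# Cell A3 (S19) — top assembly, v2: frozen S19 from the THREE open nodes

ORD (`H15.ordStatement`; independent second/third proofs: `H19.ordStatement`, `A3.H619.ord`),
FIN (`A3.H319.finStatement`, helper319) and CONT (`contStatement`) are proved on main.  Open:

    UNR   : UnrStatement      (pure algebra; split UA/UB/UC in `S19/Unr/Spec.lean`)
    LOCAL : LocalStatement    (abstract `A3.H799.LocalStatement` + GoodRed instance for `X₀(M)`)
    LEVEL : LevelStatement    (ℓ = 2, 3: equivariant embedding into a good level)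
-/

set_option autoImplicit false

namespace Fermat.Agent.S19

/-- ORDER from the three open nodes. -/
theorem orderStatement_of_three (hunr : UnrStatement) (hlocal : LocalStatement)
    (hlevel : LevelStatement) : OrderStatement :=
  orderStatement_of_blocks Fermat.Agent.A3.H319.finStatement hunr hlocal hlevel

/-- **Top assembly v2**: frozen S19 from UNR, LOCAL, LEVEL. -/
theorem S19_of_three (hunr : UnrStatement) (hlocal : LocalStatement) (hlevel : LevelStatement)
    (p : ℕ) [NeZero p] (ℓ : ℕ) [Fact ℓ.Prime] (hℓp : ¬ ℓ ∣ p) (k : ℕ) :
    FrozenConclusion p ℓ k :=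
  S19_of_five H15.ordStatement Fermat.Agent.A3.H319.finStatement hunr hlocal hlevel p ℓ hℓp k

end Fermat.Agent.S19
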