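import Fermat.Agent.S19.Top2
import Fermat.Agent.A3.H319.Level
import Fermat.Agent.S19.H979.RankOne
import Fermat.Agent.S19.H679.Main

/-!
# Cell A3 (S19) — top assembly, v4: frozen S19 from the TWO open leaves

Proved on main and discharged here: ORD, FIN, CONT (`Top2`), LEVEL (`A3.H319.levelStatement`),
UNR (`H679.unrStatementH679`, helper679; backup: UA/UB/UC of helper859), RANK ONE
(`H979.rankOneStatement`).

    S19_of_local  : LocalStatement → frozen S19
    S19_of_abs_gr : H979.AbsLocalStatement → H979.GrStatement → frozen S19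

Open leaves: LOCAL-ABS (`H979.AbsLocalStatement` = the abstract local theorem of `A3/H799`) and
GR (`H979.GrStatement` = the `GoodRed` instance for `X₀(M)` at good levels).
-/

set_option autoImplicit false

namespace Fermat.Agent.S19

/-- **Top assembly v4a**: frozen S19 from LOCAL. -/
theorem S19_of_local (hlocal : LocalStatement)
    (p : ℕ) [NeZero p] (ℓ : ℕ) [Fact ℓ.Prime] (hℓp : ¬ ℓ ∣ p) (k : ℕ) :
    FrozenConclusion p ℓ k :=
  S19_of_three H679.unrStatementH679 hlocal Fermat.Agent.A3.H319.levelStatement p ℓ hℓp k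

/-- **Top assembly v4b**: frozen S19 from the two open leaves LOCAL-ABS and GR. -/
theorem S19_of_abs_gr (habs : H979.AbsLocalStatement) (hgr : H979.GrStatement)
    (p : ℕ) [NeZero p] (ℓ : ℕ) [Fact ℓ.Prime] (hℓp : ¬ ℓ ∣ p) (k : ℕ) :
    FrozenConclusion p ℓ k :=
  S19_of_local (H979.localStatement_of_abs_gr' habs hgr) p ℓ hℓp k

end Fermat.Agent.S19
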